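/-
P-S48 (Deligne-Serre), top of the chain (helper52): the conclusion of the frozen statement S48 from
the single remaining input `DS2.G1Statement` (the export of the `Γ₁`-gateway at the levels `M ≥ 8`
divisible by `4` or `9`; `G1/Final.g1_main` has exactly this shape).

Front end: helper18's `Assembly.s48_of_inputs`; (A), (A'+B): `DS0/Final.lean`; (C): `DS2/Closed.lean`.
-/
import Mathlib
import Fermat.Agent.S48x.Assembly.Main
import Fermat.Agent.S48x.DS0.Final
import Fermat.Agent.S48x.DS2.Closed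

set_option autoImplicit false

open CongruenceSubgroup
open scoped MatrixGroups

namespace Fermat.Agent.S48x

local notation "Γℚ" => (AlgebraicClosure ℚ ≃ₐ[ℚ] AlgebraicClosure ℚ)

/-- **Deligne-Serre (the frozen statement S48)** from `DS2.G1Statement`. -/
theorem s48_of_G1Statement (hG1 : DS2.G1Statement)
    (N : ℕ) [NeZero N] (ε : DirichletCharacter ℂ N) (f : CuspForm (Gamma1 N) 1)
    (hf₁ : ModularFormClass.qCoeff f 1 = 1)
    (hT : ∀ p : ℕ, p.Prime → ¬ p ∣ N → ∀ n : ℕ,
        ModularFormClass.qCoeff f (p * n) +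
            ε (p : ZMod N) * (if p ∣ n then ModularFormClass.qCoeff f (n / p) else 0) =
          ModularFormClass.qCoeff f p * ModularFormClass.qCoeff f n) :
    ∃ ρ : Γℚ →* GL (Fin 2) ℂ, GaloisFactorsThroughFiniteLevel ρ ∧
      (Deformation.matrixRepresentation ρ).IsIrreducible ∧
      ∀ p : ℕ, p.Prime → ¬ p ∣ N →
        ∀ A : ValuationSubring (AlgebraicClosure ℚ), A.LiesOverPrime p →
          (∀ σ ∈ A.inertiaSubgroupIn ℚ, ρ σ = 1) ∧
          ∀ σ : Γℚ, A.IsFrobeniusAt σ p →
            ((ρ σ : GL (Fin 2) ℂ) : Matrix (Fin 2) (Fin 2) ℂ).trace = ModularFormClass.qCoeff f p ∧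
            ((ρ σ : GL (Fin 2) ℂ) : Matrix (Fin 2) (Fin 2) ℂ).det = ε (p : ZMod N) :=
  Assembly.s48_of_inputs ε (fun p => ModularFormClass.qCoeff f p) (DS0.integral ε f hf₁ hT)
    (DS0.numberField_rankin ε f hf₁ hT)
    (DS2.residualRepsExist_of_G1 hG1 ε f hf₁ hT)

end Fermat.Agent.S48x
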