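/-
P-S48 (Deligne-Serre), top of the chain, Jacobian form (helper52): the conclusion of the frozen
statement S48 from the single remaining input `JSideStatement`: a Jacobian side
`G1.Final.JSide1 M ℓ M.primeFactors` with the standard Eichler-Shimura normalisation
(`diamInv = false`) at the levels `M ≥ 8` divisible by `4` or `9` and the primes `ℓ ∣ M`.

The cohomological / forms half is `Coh/Final2.lean` (helper14 et al.), the rest is `Top.lean`.
-/
import Mathlib
import Fermat.Agent.S48x.Top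
import Fermat.Agent.S48x.Coh.Final2

set_option autoImplicit false

open CongruenceSubgroup
open scoped MatrixGroups

namespace Fermat.Agent.S48x

local notation "Γℚ" => (AlgebraicClosure ℚ ≃ₐ[ℚ] AlgebraicClosure ℚ)

/-- What the Jacobian side of the `Γ₁`-gateway owes. -/
def JSideStatement : Prop :=
  ∀ (M : ℕ) [NeZero M], (4 ∣ M ∨ 9 ∣ M) → 8 ≤ M → ∀ ℓ : ℕ, ℓ.Prime → ℓ ∣ M →
    ∃ Jd : G1.Final.JSide1 M ℓ M.primeFactors, Jd.diamInv = false

/-- The `Γ₁`-gateway statement from Jacobian sides. -/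
theorem g1Statement_of_jSideStatement (h : JSideStatement) : DS2.G1Statement := by
  intro M _ h49 h8 ℓ hℓ hℓM
  obtain ⟨Jd, hJ⟩ := h M h49 h8 ℓ hℓ hℓM
  exact ⟨Nebentypus.heckeOps1 M 2, Coh.exists_torsionHeckeData1_of_jSide1 hℓ Jd hJ⟩

/-- **Deligne-Serre (the frozen statement S48)** from `JSideStatement`. -/
theorem s48_of_jSideStatement (h : JSideStatement)
    (N : ℕ) [NeZero N] (ε : DirichletCharacter ℂ N) (f : CuspForm (Gamma1 N) 1)
    (hf₁ : ModularFormClass.qCoeff f 1 = 1)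
    (hT : ∀ p : ℕ, p.Prime → ¬ p ∣ N → ∀ n : ℕ,
        ModularFormClass.qCoeff f (p * n) +
            ε (p : ZMod N) * (if p ∣ n then ModularFormClass.qCoeff f (n / p) else 0) =
          ModularFormClass.qCoeff f p * ModularFormClass.qCoeff f n) :
    ∃ ρ : Γℚ →* GL (Fin 2) ℂ, GaloisFactorsThroughFiniteLevel ρ ∧
      (Deformation.matrixRepresentation ρ).IsIrreducible ∧
      ∀ p : ℕ, p.Prime → ¬ p ∣ N →
        ∀ A : ValuationSubring (AlgebraicClosure ℚ), A.LiesOverPrime p →
          (∀ σ ∈ A.inertiaSubgroupIn ℚ, ρ σ = 1) ∧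
          ∀ σ : Γℚ, A.IsFrobeniusAt σ p →
            ((ρ σ : GL (Fin 2) ℂ) : Matrix (Fin 2) (Fin 2) ℂ).trace = ModularFormClass.qCoeff f p ∧
            ((ρ σ : GL (Fin 2) ℂ) : Matrix (Fin 2) (Fin 2) ℂ).det = ε (p : ZMod N) :=
  s48_of_G1Statement (g1Statement_of_jSideStatement h) N ε f hf₁ hT

end Fermat.Agent.S48x
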